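import Fermat.Agent.BiquadNorm.Principle
import Mathlib.NumberTheory.LegendreSymbol.QuadraticReciprocity
import Mathlib.FieldTheory.SplittingField.Construction

/-!
# The biquadratic fields without norm principle

For primes `p, q` congruent to `1` modulo `4`, squares modulo each other, every decomposition group
of `ℚ(√p, √q)` has at most two elements.
-/

set_option autoImplicit false
set_option linter.unusedSectionVars false
set_option linter.style.haveILetI false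

noncomputable section

open NumberField IsDedekindDomain IsMulCommutative Polynomial
open FA.ArtinRec FA.NormResidue
open scoped Pointwise Classical

namespace FA.BiquadNorm

theorem not_isSquare_prime {p : ℕ} (hp : p.Prime) : ¬ IsSquare (p : ℚ) := by
  rw [Rat.isSquare_natCast_iff]
  rintro ⟨m, hm⟩
  rcases hp.eq_one_or_self_of_dvd m ⟨m, hm⟩ with rfl | rfl
  · exact hp.one_lt.ne' (by omega)
  · exact hp.one_lt.ne' ((Nat.mul_eq_left hp.ne_zero).1 hm.symm)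

theorem not_isSquare_prime_mul {p q : ℕ} (hp : p.Prime) (hq : q.Prime) (hpq : p ≠ q) :
    ¬ IsSquare ((p * q : ℕ) : ℚ) := by
  rw [Rat.isSquare_natCast_iff]
  rintro ⟨m, hm⟩
  obtain ⟨k, rfl⟩ : p ∣ m := (hp.dvd_mul.1 (hm ▸ dvd_mul_right p q)).elim id id
  refine hpq ((Nat.prime_dvd_prime_iff_eq hp hq).1 ⟨k * k, ?_⟩)
  exact Nat.eq_of_mul_eq_mul_left hp.pos (hm.trans (by ring))

variable {L : Type*} [Field L] [NumberField L]

theorem apply_eq_or_neg {n : ℕ} {α : L} (hα : α ^ 2 = n) (g : L ≃ₐ[ℚ] L) : g α = α ∨ g α = -α :=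
  sq_eq_sq_iff_eq_or_eq_neg.1 (by rw [← map_pow, hα, map_natCast])

theorem ne_zero_of_sq {n : ℕ} (hn : n ≠ 0) {α : L} (hα : α ^ 2 = n) : α ≠ 0 := fun h => by
  rw [h, zero_pow two_ne_zero] at hα
  exact Nat.cast_ne_zero.2 hn hα.symm

/-- An element of odd prime square is moved. -/
theorem exists_neg [IsGalois ℚ L] {n : ℕ} (hn : ¬ IsSquare (n : ℚ)) {α : L} (hα : α ^ 2 = n) :
    ∃ g : L ≃ₐ[ℚ] L, g α = -α := by
  by_contra! h
  obtain ⟨r, hr⟩ := IntermediateField.mem_bot.1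
    ((IsGalois.mem_bot_iff_fixed α).2 fun g => (apply_eq_or_neg hα g).resolve_right (h g))
  refine hn ⟨r, (algebraMap ℚ L).injective ?_⟩
  rw [map_mul, hr, map_natCast, ← hα, pow_two]

theorem exists_sep [IsGalois ℚ L] {p q : ℕ} (hp : p.Prime) (hq : q.Prime) (hpq : p ≠ q) {α β : L}
    (hα : α ^ 2 = p) (hβ : β ^ 2 = q) : ∃ g : L ≃ₐ[ℚ] L, g α = -α ∧ g β = β := by
  obtain ⟨a, ha⟩ := exists_neg (not_isSquare_prime hp) hα
  rcases apply_eq_or_neg hβ a with h | h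
  · exact ⟨a, ha, h⟩
  obtain ⟨c, hc⟩ := exists_neg (not_isSquare_prime_mul hp hq hpq) (α := α * β)
    (by rw [mul_pow, hα, hβ, Nat.cast_mul])
  have hα0 := ne_zero_of_sq hp.ne_zero hα
  have hβ0 := ne_zero_of_sq hq.ne_zero hβ
  rw [map_mul] at hc
  rcases apply_eq_or_neg hα c with h1 | h1
  · refine ⟨a * c, ?_, ?_⟩
    · rw [AlgEquiv.mul_apply, h1, ha]
    · rw [h1, ← mul_neg] at hc
      rw [AlgEquiv.mul_apply, mul_left_cancel₀ hα0 hc, map_neg, h, neg_neg]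
  · refine ⟨c, h1, ?_⟩
    rw [h1, neg_mul, neg_inj] at hc
    exact mul_left_cancel₀ hα0 hc

variable {α β : L} (hgen : IntermediateField.adjoin ℚ {α, β} = ⊤)
include hgen

theorem eq_one_of_fix {g : L ≃ₐ[ℚ] L} (hα : g α = α) (hβ : g β = β) : g = 1 := by
  have hle : IntermediateField.adjoin ℚ {α, β} ≤
      IntermediateField.fixedField (Subgroup.zpowers g) := by
    rw [IntermediateField.adjoin_le_iff]
    rintro x (rfl | rfl) ⟨h, hh⟩
    all_goals
      exact (Subgroup.zpowers_le.2 (show g ∈ MulAction.stabilizer (L ≃ₐ[ℚ] L) _ by assumption) hh)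
  exact AlgEquiv.ext fun x =>
    hle (hgen ▸ IntermediateField.mem_top : x ∈ IntermediateField.adjoin ℚ {α, β})
      ⟨g, Subgroup.mem_zpowers g⟩

variable {p q : ℕ} (hα : α ^ 2 = p) (hβ : β ^ 2 = q)
include hα hβ

theorem exp_two (g : L ≃ₐ[ℚ] L) : g * g = 1 := by
  refine eq_one_of_fix hgen ?_ ?_ <;> rw [AlgEquiv.mul_apply]
  · rcases apply_eq_or_neg hα g with h | h <;> simp [h]
  · rcases apply_eq_or_neg hβ g with h | h <;> simp [h]

theorem eq_of_signs {g h : L ≃ₐ[ℚ] L} (h1 : g α = α ↔ h α = α) (h2 : g β = β ↔ h β = β) :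
    g = h := by
  have key : ∀ {n : ℕ} {γ : L}, γ ^ 2 = n → (g γ = γ ↔ h γ = γ) → (g * h) γ = γ :=
    fun {n γ} hγ hi => by
    rw [AlgEquiv.mul_apply]
    rcases apply_eq_or_neg hγ h with e | e
    · rw [e, hi.2 e]
    · rcases apply_eq_or_neg hγ g with e' | e'
      · rw [hi.1 e', e']
      · rw [e, map_neg, e', neg_neg]
  have h3 := eq_one_of_fix hgen (key hα h1) (key hβ h2)
  rw [← mul_one g, ← exp_two hgen hα hβ h, ← mul_assoc, h3, one_mul]

variable [IsGalois ℚ L] (hp : p.Prime) (hq : q.Prime) (hpq : p ≠ q)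
include hp hq hpq

theorem card_aut : Nat.card (L ≃ₐ[ℚ] L) = 4 := by
  obtain ⟨u, hu1, hu2⟩ := exists_sep hp hq hpq hα hβ
  obtain ⟨w, hw1, hw2⟩ := exists_sep hq hp hpq.symm hβ hα
  have hα0 : ¬ -α = α := neg_ne_self.2 (ne_zero_of_sq hp.ne_zero hα)
  have hβ0 : ¬ -β = β := neg_ne_self.2 (ne_zero_of_sq hq.ne_zero hβ)
  rw [Nat.card_congr (Equiv.ofBijective (fun g : L ≃ₐ[ℚ] L => (decide (g α = α), decide (g β = β)))
    ⟨fun g h e => eq_of_signs hgen hα hβ (decide_eq_decide.1 (congrArg Prod.fst e))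
      (decide_eq_decide.1 (congrArg Prod.snd e)), fun x => ?_⟩), Nat.card_eq_fintype_card]
  · rfl
  rcases x with ⟨_ | _, _ | _⟩
  · exact ⟨u * w, by simp [hu1, hu2, hw1, hw2, hα0, hβ0]⟩
  · exact ⟨u, by simp [hu1, hu2, hα0]⟩
  · exact ⟨w, by simp [hw1, hw2, hβ0]⟩
  · exact ⟨1, by simp⟩

variable (hp4 : p % 4 = 1) (hq4 : q % 4 = 1) (hsq : IsSquare ((p : ℕ) : ZMod q))
include hp4 hq4 hsq

omit hgen hβ hq hpq hq4 hsq in
/-- Inertia outside `p` fixes `√p`. -/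
theorem inertia_fix {Q : HeightOneSpectrum (𝓞 L)} (hQ : (p : 𝓞 L) ∉ Q.asIdeal) {g : L ≃ₐ[ℚ] L}
    (hg : g ∈ Q.asIdeal.inertia (L ≃ₐ[ℚ] L)) : g α = α := by
  refine (apply_eq_or_neg hα g).resolve_right fun h => hQ ?_
  obtain ⟨k, hk⟩ : ∃ k, p = 4 * k + 1 := ⟨p / 4, by omega⟩
  have hint : IsIntegral ℤ ((1 + α) / 2) := by
    refine ⟨X ^ 2 - X - C (k : ℤ), by monicity!, ?_⟩
    have h4 : α ^ 2 = 4 * (k : L) + 1 := by rw [hα, hk]; push_cast; ring
    simp only [eval₂_sub, eval₂_X, eval₂_X_pow, map_natCast, eval₂_natCast]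
    field_simp
    linear_combination h4
  set θ : 𝓞 L := ⟨(1 + α) / 2, hint⟩
  have hint' : IsIntegral ℤ α := by
    refine ⟨X ^ 2 - C (p : ℤ), by monicity!, ?_⟩
    simp [hα]
  set A : 𝓞 L := ⟨α, hint'⟩
  have hsub : g • θ - θ = -A := by
    refine RingOfIntegers.ext ?_
    show g ((1 + α) / 2) - (1 + α) / 2 = -α
    rw [map_div₀, map_add, map_one, map_ofNat, h]
    field_simp
    ring
  have hA : A * A = (p : 𝓞 L) := by
    refine RingOfIntegers.ext ?_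
    show α * α = _
    rw [← pow_two, hα]
    simp
  have h1 : -A ∈ Q.asIdeal := hsub ▸ hg θ
  rw [← hA]
  exact Q.asIdeal.mul_mem_left A (neg_mem_iff.1 h1)

omit hgen hpq hp4 hq4 hsq in
/-- The decomposition group at `p` fixes `√q`. -/
theorem stabilizer_fix {r : ℤ} (hr : (p : ℤ) ∣ (q : ℤ) - r ^ 2) (hp2 : p ≠ 2) (hpq' : p ≠ q)
    {Q : HeightOneSpectrum (𝓞 L)} (hQ : (p : 𝓞 L) ∈ Q.asIdeal) {g : L ≃ₐ[ℚ] L}
    (hg : g ∈ MulAction.stabilizer (L ≃ₐ[ℚ] L) Q.asIdeal) : g β = β := by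
  refine (apply_eq_or_neg hβ g).resolve_right fun h => ?_
  have hint : IsIntegral ℤ β := by
    refine ⟨X ^ 2 - C (q : ℤ), by monicity!, ?_⟩
    simp [hβ]
  set B : 𝓞 L := ⟨β, hint⟩
  have hgB : g • B = -B := RingOfIntegers.ext h
  have hB : B * B = ((q : ℤ) : 𝓞 L) := by
    refine RingOfIntegers.ext ?_
    show β * β = _
    rw [← pow_two, hβ]
    simp
  obtain ⟨d, hd⟩ := hr
  have hmem : (B - (r : 𝓞 L)) * (B + (r : 𝓞 L)) ∈ Q.asIdeal := by
    rw [show (B - (r : 𝓞 L)) * (B + (r : 𝓞 L)) = (((q : ℤ) - r ^ 2 : ℤ) : 𝓞 L) by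
      push_cast at hB ⊢; linear_combination hB, hd, Int.cast_mul, Int.cast_natCast]
    exact Q.asIdeal.mul_mem_right _ hQ
  have hstab : ∀ x ∈ Q.asIdeal, g • x ∈ Q.asIdeal := fun x hx => by
    rw [← MulAction.mem_stabilizer_iff.1 hg]
    exact Ideal.smul_mem_pointwise_smul _ _ _ hx
  have hint' : g • (r : 𝓞 L) = (r : 𝓞 L) :=
    map_intCast (MulSemiringAction.toRingHom (L ≃ₐ[ℚ] L) (𝓞 L) g) r
  have h2B : 2 * B ∈ Q.asIdeal := by
    rcases Q.isPrime.mem_or_mem hmem with h1 | h1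
    · have h2 := hstab _ h1
      rw [smul_sub, hgB, hint'] at h2
      rw [show 2 * B = (B - (r : 𝓞 L)) - (-B - (r : 𝓞 L)) by ring]
      exact sub_mem h1 h2
    · have h2 := hstab _ h1
      rw [smul_add, hgB, hint'] at h2
      rw [show 2 * B = (B + (r : 𝓞 L)) - (-B + (r : 𝓞 L)) by ring]
      exact sub_mem h1 h2
  have h4 : ((4 * q : ℕ) : 𝓞 L) ∈ Q.asIdeal := by
    push_cast at hB ⊢
    rw [← hB, show 4 * (B * B) = 2 * B * (2 * B) by ring]
    exact Q.asIdeal.mul_mem_left _ h2B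
  have hcop : Nat.Coprime p (4 * q) := Nat.Coprime.mul_right
    (((Nat.coprime_primes hp Nat.prime_two).2 hp2).pow_right 2)
    ((Nat.coprime_primes hp hq).2 hpq')
  obtain ⟨u, v, huv⟩ := Nat.isCoprime_iff_coprime.2 hcop
  refine Q.isPrime.ne_top ((Ideal.eq_top_iff_one _).2 ?_)
  rw [show (1 : 𝓞 L) = (u : 𝓞 L) * (p : 𝓞 L) + (v : 𝓞 L) * ((4 * q : ℕ) : 𝓞 L) by
    rw [← Int.cast_one, ← huv]; push_cast; ring]
  exact add_mem (Q.asIdeal.mul_mem_left _ hQ) (Q.asIdeal.mul_mem_left _ h4)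

/-- **Every decomposition group has at most two elements.** -/
theorem card_stabilizer_le_two (Q : HeightOneSpectrum (𝓞 L)) :
    Nat.card (MulAction.stabilizer (L ≃ₐ[ℚ] L) Q.asIdeal) ≤ 2 := by
  haveI : IsMulCommutative (L ≃ₐ[ℚ] L) := ⟨⟨fun a b => by
    have h := exp_two hgen hα hβ
    rw [← one_mul (b * a), ← h (a * b), mul_assoc, mul_assoc a b (b * a), ← mul_assoc b b,
      h, one_mul, h, mul_one]⟩⟩
  set D := MulAction.stabilizer (L ≃ₐ[ℚ] L) Q.asIdeal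
  have hbool : ∀ f : D → Bool, Function.Injective f → Nat.card D ≤ 2 := fun f hf =>
    (Nat.card_le_card_of_injective f hf).trans (by simp)
  haveI := Fact.mk hp
  haveI := Fact.mk hq
  have hroot : ∀ {a b : ℕ}, IsSquare ((b : ℕ) : ZMod a) → ∃ r : ℤ, (a : ℤ) ∣ (b : ℤ) - r ^ 2 := by
    rintro a b ⟨s, hs⟩
    obtain ⟨r, rfl⟩ := ZMod.intCast_surjective s
    refine ⟨r, (ZMod.intCast_zmod_eq_zero_iff_dvd _ _).1 ?_⟩
    push_cast
    rw [hs]
    ring
  by_cases hpQ : (p : 𝓞 L) ∈ Q.asIdeal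
  · have hsq' : IsSquare ((q : ℕ) : ZMod p) :=
      (ZMod.exists_sq_eq_prime_iff_of_mod_four_eq_one hp4 (by omega)).2 hsq
    obtain ⟨r, hr⟩ := hroot hsq'
    have hfix := fun (g : D) => stabilizer_fix hα hβ hp hq hr (by omega) hpq hpQ g.2
    refine hbool (fun g => decide (g.1 α = α)) fun g h e => Subtype.ext
      (eq_of_signs hgen hα hβ (decide_eq_decide.1 e) ⟨fun _ => hfix h, fun _ => hfix g⟩)
  by_cases hqQ : (q : 𝓞 L) ∈ Q.asIdeal
  · obtain ⟨r, hr⟩ := hroot hsq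
    have hfix := fun (g : D) => stabilizer_fix hβ hα hq hp hr (by omega) hpq.symm hqQ g.2
    refine hbool (fun g => decide (g.1 β = β)) fun g h e => Subtype.ext
      (eq_of_signs hgen hα hβ ⟨fun _ => hfix h, fun _ => hfix g⟩ (decide_eq_decide.1 e))
  have hr : ¬ IsRam L (belowP ℚ Q) := by
    rintro ⟨Q', hQ', hne⟩
    have hcast : ∀ n : ℕ, (n : 𝓞 L) ∈ Q'.asIdeal → (n : 𝓞 L) ∈ Q.asIdeal := fun n hn => by
      have h1 : (n : 𝓞 ℚ) ∈ (belowP ℚ Q').asIdeal := by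
        show (n : 𝓞 ℚ) ∈ Q'.asIdeal.under (𝓞 ℚ)
        rwa [Ideal.mem_comap, map_natCast]
      rw [hQ'] at h1
      replace h1 : (n : 𝓞 ℚ) ∈ Q.asIdeal.under (𝓞 ℚ) := h1
      rwa [Ideal.mem_comap, map_natCast] at h1
    exact hne ((Subgroup.eq_bot_iff_forall _).2 fun g hg => eq_one_of_fix hgen
      (inertia_fix hα hp hp4 (fun h => hpQ (hcast p h)) hg)
      (inertia_fix hβ hq hq4 (fun h => hqQ (hcast q h)) hg))
  have hsub : (D : Set (L ≃ₐ[ℚ] L)) ⊆ {1, artinAt L (belowP ℚ Q)} := fun g hg => by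
    rw [SetLike.mem_coe, show D = (normSymbol L (belowP ℚ Q)).range from
      (range_normSymbol (v := belowP ℚ Q) rfl).symm] at hg
    obtain ⟨a, rfl⟩ := hg
    rw [normSymbol_of_not_isRam hr, ← Int.emod_add_mul_ediv (ord _ a) 2, zpow_add, zpow_mul,
      zpow_two, exp_two hgen hα hβ, one_zpow, mul_one]
    rcases Int.emod_two_eq (ord (belowP ℚ Q) a) with h | h <;> simp [h]
  calc Nat.card D = (D : Set (L ≃ₐ[ℚ] L)).ncard := Nat.card_coe_set_eq _
    _ ≤ ({1, artinAt L (belowP ℚ Q)} : Set (L ≃ₐ[ℚ] L)).ncard := Set.ncard_le_ncard hsub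
    _ ≤ 2 := (Set.ncard_insert_le _ _).trans (by simp)

omit hgen hα hβ hp hq hpq hp4 hq4 hsq

/-- Such fields exist. -/
theorem exists_field (p q : ℕ) : ∃ (L : Type) (_ : Field L) (_ : NumberField L)
    (_ : IsGalois ℚ L) (α β : L),
      α ^ 2 = p ∧ β ^ 2 = q ∧ IntermediateField.adjoin ℚ {α, β} = ⊤ := by
  set f : ℚ[X] := (X ^ 2 - C (p : ℚ)) * (X ^ 2 - C (q : ℚ))
  have hf : ∀ n : ℕ, X ^ 2 - C (n : ℚ) ≠ 0 := fun n => X_pow_sub_C_ne_zero two_pos _
  let L := f.SplittingField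
  haveI : NumberField L := ⟨⟩
  haveI : IsSplittingField ℚ L f := by
    convert IsSplittingField.splittingField f
    exact Subsingleton.elim _ _
  haveI : Normal ℚ L := Normal.of_isSplittingField f
  haveI : IsGalois ℚ L := ⟨⟩
  have hspl : (f.map (algebraMap ℚ L)).Splits := IsSplittingField.splits L f
  have hroot : ∀ n : ℕ, (X ^ 2 - C (n : ℚ)) ∣ f → ∃ γ : L, γ ^ 2 = n := fun n hn => by
    obtain ⟨γ, hγ⟩ := ((hspl.of_dvd (Polynomial.map_ne_zero (mul_ne_zero (hf p) (hf q)))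
      (Polynomial.map_dvd _ hn))).exists_eval_eq_zero (by
        rw [degree_map, degree_X_pow_sub_C two_pos]; exact two_ne_zero)
    refine ⟨γ, sub_eq_zero.1 ?_⟩
    simpa using hγ
  obtain ⟨α, hα⟩ := hroot p (dvd_mul_right _ _)
  obtain ⟨β, hβ⟩ := hroot q (dvd_mul_left _ _)
  refine ⟨L, inferInstance, inferInstance, inferInstance, α, β, hα, hβ, top_le_iff.1 ?_⟩
  have hgen : Algebra.adjoin ℚ (f.rootSet L) = ⊤ := IsSplittingField.adjoin_rootSet L f
  have hle : f.rootSet L ⊆ IntermediateField.adjoin ℚ {α, β} := fun x hx => by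
    have hmem : ∀ γ : L, γ ∈ ({α, β} : Set L) → ∀ n : ℕ, γ ^ 2 = n → x ^ 2 = n →
        x ∈ IntermediateField.adjoin ℚ {α, β} := fun γ hγ n h1 h2 => by
      rcases sq_eq_sq_iff_eq_or_eq_neg.1 (h2.trans h1.symm) with e | e <;> rw [e]
      · exact IntermediateField.subset_adjoin _ _ hγ
      · exact neg_mem (IntermediateField.subset_adjoin _ _ hγ)
    have h0 := (mem_rootSet.1 hx).2
    simp only [f, map_mul, map_sub, map_pow, aeval_X, map_natCast, mul_eq_zero,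
      sub_eq_zero] at h0
    rcases h0 with h0 | h0
    exacts [hmem α (Or.inl rfl) p hα h0, hmem β (Or.inr rfl) q hβ h0]
  intro x _
  have hx : x ∈ Algebra.adjoin ℚ (f.rootSet L) := hgen ▸ Algebra.mem_top
  exact (Algebra.adjoin_le
    (S := (IntermediateField.adjoin ℚ {α, β}).toSubalgebra) hle) hx

end FA.BiquadNorm

end
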