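import Fermat.Agent.BiquadNorm.Tower

/-!
# Local and global norms from a biquadratic extension

An element that is a norm everywhere locally is a norm of some `z` from the quadratic step; it is a
norm as soon as the product of the symbols of `z` over the primes splitting there is trivial, or
some prime does not split at all. Otherwise the square of an element with nontrivial product is a
counterexample.
-/

set_option autoImplicit false
set_option linter.unusedSectionVars false
set_option linter.style.haveILetI false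

noncomputable section

open NumberField NumberField.InfinitePlace IsDedekindDomain WithZero IsMulCommutative
open FA.ArtinRec FA.NormResidue FA.LocalCFT
open FA.HasseCyclic (nearOne locNorms normU'_mem_locNorms exists_norm_eq norm_pos_of_ramified)
open scoped Pointwise nonZeroDivisors Classical

namespace FA.BiquadNorm

section loc

variable {K : Type*} [Field K] [NumberField K] (L : Type*) [Field L] [NumberField L] [Algebra K L]
  [IsGalois K L] [IsMulCommutative (L ≃ₐ[K] L)]

/-- A norm locally everywhere. -/
def IsLocNorm (c : Kˣ) : Prop :=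
  (∀ v : HeightOneSpectrum (𝓞 K), normSymbol L v c = 1) ∧
    ∀ w : InfinitePlace K, ¬ w.IsUnramifiedIn L →
      ∀ h : IsReal w, 0 < embedding_of_isReal h (c : K)

/-- A prime with decomposition group the whole Galois group. -/
def IsFull (v : HeightOneSpectrum (𝓞 K)) : Prop := (normSymbol L v).range = ⊤

end loc

variable {K M L : Type*} [Field K] [NumberField K] [Field M] [NumberField M] [Field L]
  [NumberField L] [Algebra K M] [Algebra M L] [Algebra K L] [IsScalarTower K M L] [IsGalois K M]
  [IsGalois K L] [IsGalois M L] [IsMulCommutative (L ≃ₐ[K] L)] [IsMulCommutative (M ≃ₐ[K] M)]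
  [IsMulCommutative (L ≃ₐ[M] L)]

/-- The automorphisms trivial on `M` are those over `M`. -/
theorem exists_res_eq {g : L ≃ₐ[K] L} (hg : AlgEquiv.restrictNormalHom M g = 1) :
    ∃ t : L ≃ₐ[M] L, res K M L t = g := by
  have hfix : ∀ m : M, g (algebraMap M L m) = algebraMap M L m := fun m => by
    rw [← AlgEquiv.restrictNormal_commutes g M m]
    exact congrArg (algebraMap M L) (DFunLike.congr_fun hg m)
  exact ⟨{ g.toRingEquiv with commutes' := hfix }, AlgEquiv.ext fun x => res_apply _ x⟩

theorem restrict_symbol_of_split {v : HeightOneSpectrum (𝓞 K)} (hv : SplitsAt M v) (a : Kˣ) :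
    AlgEquiv.restrictNormalHom M (normSymbol L v a) = 1 := by
  rw [restrict_normSymbol, hv a]

theorem splitsAt_of_restrict {v : HeightOneSpectrum (𝓞 K)}
    (h : ∀ a, AlgEquiv.restrictNormalHom M (normSymbol L v a) = 1) : SplitsAt M v := fun a => by
  rw [← restrict_normSymbol (L := L)]
  exact h a

variable (σ : M ≃ₐ[K] M) (τ : L ≃ₐ[K] L) in
/-- Two quadratic steps with group of exponent two: `σ` is nontrivial on `M`, `τ` trivial on it. -/
structure IsBiquad : Prop where
  exp2 : ∀ g : L ≃ₐ[K] L, g * g = 1
  card : Nat.card (L ≃ₐ[K] L) = 4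
  σ_ne : σ ≠ 1
  σ_univ : ∀ g : M ≃ₐ[K] M, g = 1 ∨ g = σ
  τ_ne : τ ≠ 1
  τ_res : AlgEquiv.restrictNormalHom M τ = 1
  τ_univ : ∀ g : L ≃ₐ[K] L, AlgEquiv.restrictNormalHom M g = 1 → g = 1 ∨ g = τ

variable {σ : M ≃ₐ[K] M} {τ : L ≃ₐ[K] L} (hB : IsBiquad σ τ)
include hB

theorem gen_sigma : ∀ g : M ≃ₐ[K] M, g ∈ Subgroup.zpowers σ := fun g => by
  rcases hB.σ_univ g with rfl | rfl
  · exact one_mem _
  · exact Subgroup.mem_zpowers _

theorem exists_gen_top : ∃ t : L ≃ₐ[M] L, ∀ g, g ∈ Subgroup.zpowers t := by
  obtain ⟨t, ht⟩ := exists_res_eq hB.τ_res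
  refine ⟨t, fun g => ?_⟩
  rcases hB.τ_univ _ (restrict_res (K := K) g) with h | h
  · rw [← map_one (res K M L)] at h
    rw [res_injective h]
    exact one_mem _
  · rw [← ht] at h
    rw [res_injective h]
    exact Subgroup.mem_zpowers _

/-- A decomposition group smaller than the whole meets the automorphisms over `M` trivially if the
prime does not split there. -/
theorem eq_one_of_not_split {v : HeightOneSpectrum (𝓞 K)} (hns : ¬ SplitsAt M v)
    (hnf : ¬ IsFull L v) {g : L ≃ₐ[K] L} (hg : g ∈ (normSymbol L v).range)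
    (hres : AlgEquiv.restrictNormalHom M g = 1) : g = 1 := by
  by_contra hne
  obtain ⟨a, ha⟩ : ∃ a, AlgEquiv.restrictNormalHom M (normSymbol L v a) ≠ 1 := by
    by_contra! h
    exact hns (splitsAt_of_restrict h)
  set h := normSymbol L v a
  have h1 : h ≠ 1 := fun e => ha (by rw [e, map_one])
  have hgh : g ≠ h := fun e => ha (e ▸ hres)
  have hsub : ({1, g, h} : Set (L ≃ₐ[K] L)) ⊆ (normSymbol L v).range := by
    rintro x (rfl | rfl | rfl)
    exacts [one_mem _, hg, ⟨a, rfl⟩]
  have h3 := Set.ncard_le_ncard hsub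
  rw [Set.ncard_insert_of_notMem (by simp [Ne.symm hne, Ne.symm h1]), Set.ncard_pair hgh,
    ← Nat.card_coe_set_eq] at h3
  have hdvd : Nat.card (normSymbol L v).range ∣ 4 :=
    hB.card ▸ Subgroup.card_subgroup_dvd_card _
  have h4 : Nat.card (normSymbol L v).range ≠ 4 := fun e =>
    hnf (Subgroup.eq_top_of_card_eq _ (e.trans hB.card.symm))
  have hle : Nat.card (normSymbol L v).range ≤ 4 := Nat.le_of_dvd (by norm_num) hdvd
  simp only [SetLike.coe_sort_coe] at h3
  interval_cases Nat.card (normSymbol L v).range <;> omega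

/-- Squares are norms everywhere locally once positive. -/
theorem isLocNorm_sq (x : Kˣ) : IsLocNorm L (x * x) :=
  ⟨fun v => by rw [map_mul, hB.exp2], fun w _ h => by
    rw [Units.val_mul, map_mul]; exact mul_self_pos.2 ((map_ne_zero _).2 x.ne_zero)⟩

/-- An element of norm one of `M` is a difference. -/
theorem exists_diff {u : Mˣ} (hu : normU' (K := K) u = 1) : ∃ w, galU σ w / w = u := by
  obtain ⟨w, hw⟩ := exists_diff_eq (gen_sigma hB) (x := u) (by
    rw [baseU_norm (gen_sigma hB), show Units.map (Algebra.norm K (S := M)) u = 1 from hu, map_one])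
  exact ⟨w, (diffHom_apply _ _).symm.trans hw⟩

theorem normU'_baseU (x : Kˣ) : normU' (K := K) (baseU (L := M) x) = x * x :=
  baseU_injective (L := M) (by
    rw [baseU_normU' hB.σ_ne hB.σ_univ, galU_baseU, map_mul])

/-- **The obstruction**: such a square is no norm. -/
theorem sq_not_norm (hnf : ∀ v : HeightOneSpectrum (𝓞 K), ¬ IsFull L v) {x : Kˣ}
    (hpos : ∀ φ : K →+* ℝ, 0 < φ (x : K)) {v₁ : HeightOneSpectrum (𝓞 K)} (hv₁ : SplitsAt M v₁)
    (hx₁ : normSymbol L v₁ x = τ) (hx : ∀ v, SplitsAt M v → v ≠ v₁ → normSymbol L v x = 1) :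
    ¬ ∃ y : Lˣ, normU' (K := K) y = x * x := by
  rintro ⟨y, hy⟩
  obtain ⟨t, ht⟩ := exists_gen_top hB
  set z : Mˣ := normU' y
  obtain ⟨w, hw⟩ := exists_diff hB (u := z / baseU x) (by
    rw [map_div, normU'_normU', hy, normU'_baseU hB, div_self'])
  set n := normU' (K := K) w
  have hfin : ∀ v, normSymbol L v n = if v = v₁ then τ else 1 := fun v => by
    obtain ⟨P, rfl⟩ := exists_belowP K M v
    by_cases hs : SplitsAt M (belowP K P)
    · have h1 : res K M L (normSymbol L P z) = 1 := by rw [normSymbol_normU', map_one]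
      have h2 : z = baseU x * (galU σ w / w) := by rw [hw, mul_div_cancel]
      rw [h2, map_mul, map_mul, res_symbol_base hB.σ_ne hB.σ_univ P hs,
        res_symbol_diff hB.σ_ne hB.σ_univ hB.exp2 P hs] at h1
      have h3 : normSymbol L (belowP K P) n = normSymbol L (belowP K P) x := by
        rw [← one_mul (normSymbol L (belowP K P) n), ← hB.exp2 (normSymbol L (belowP K P) x),
          mul_assoc, h1, mul_one]
      rw [h3]
      split_ifs with e
      · rw [e, hx₁]
      · exact hx _ hs e
    · rw [if_neg fun e => hs (by rw [e]; exact hv₁)]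
      refine eq_one_of_not_split hB hs (hnf _) ⟨n, rfl⟩ ?_
      rw [restrict_normSymbol, normSymbol_normU']
  have hinf : ∀ v : InfinitePlace K, infSymbol L v n = 1 := fun v =>
      infSymbol_eq_one fun hram hr => by
    by_cases hM : v.IsUnramifiedIn M
    · obtain ⟨W, hW, hWr⟩ : ∃ W : InfinitePlace L, W.comap (algebraMap K L) = v ∧
          ¬ W.IsUnramified K := by
        by_contra! hcon
        exact hram fun W hW => hcon W hW
      set u := W.comap (algebraMap M L) with hu_def
      have hu : u.comap (algebraMap K M) = v := by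
        rw [hu_def, ← InfinitePlace.comap_comp, ← IsScalarTower.algebraMap_eq, hW]
      have hur : IsReal u := (isUnramified_iff.1 (hM u hu)).resolve_right
        (not_isComplex_iff_isReal.2 (hu.symm ▸ hr))
      have hWM : ¬ W.IsUnramified M :=
        not_isUnramified_iff.2 ⟨(not_isUnramified_iff.1 hWr).1, hur⟩
      have hz : 0 < embedding_of_isReal hur (z : M) :=
        norm_pos_of_ramified ht (fun h => hWM (h W rfl)) hur y
      have hemb : ∀ a : K, embedding_of_isReal hur (algebraMap K M a) =
          embedding_of_isReal hr a := fun a => by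
        refine Complex.ofReal_injective ?_
        rw [embedding_of_isReal_apply, embedding_of_isReal_apply]
        subst hu
        rw [comap_embedding_of_isReal (algebraMap K M) hr]
        rfl
      have h3 : embedding_of_isReal hr (n : K) * embedding_of_isReal hr (x : K) =
          embedding_of_isReal hur (z : M) *
            (embedding_of_isReal hur (w : M) * embedding_of_isReal hur (w : M)) := by
        rw [← hemb, ← hemb, ← baseU_val, ← baseU_val, ← map_mul, ← map_mul, ← map_mul,
          ← Units.val_mul, ← Units.val_mul, ← Units.val_mul]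
        refine congrArg (fun q : Mˣ => embedding_of_isReal hur (q : M)) ?_
        rw [baseU_normU' hB.σ_ne hB.σ_univ, show z = baseU x * (galU σ w / w) by
          rw [hw, mul_div_cancel], mul_assoc (baseU x), ← mul_assoc (galU σ w / w),
          div_mul_cancel]
        ac_rfl
      have h4 := mul_pos hz (mul_self_pos.2 ((map_ne_zero (embedding_of_isReal hur)).2 w.ne_zero))
      rw [← h3] at h4
      exact (mul_pos_iff_of_pos_right (hpos _)).1 h4
    · exact norm_pos_of_ramified (gen_sigma hB) hM hr w
  have hp := prod_normSymbol (L := L) n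
  rw [finprod_eq_single _ v₁ fun v hv => by rw [hfin, if_neg hv], hfin, if_pos rfl,
    Finset.prod_eq_one fun v _ => hinf v, mul_one] at hp
  exact hB.τ_ne hp

/-- The symbol of `z` at a prime over `v`, if `v` splits. -/
theorem exists_target {c : Kˣ} (hc : IsLocNorm L c) {z : Mˣ} (hz : normU' (K := K) z = c)
    (P : HeightOneSpectrum (𝓞 M)) (hs : SplitsAt M (belowP K P)) :
    (∃ a, normSymbol L (belowP K P) a = res K M L (normSymbol L P z)) ∧
      ∀ P', belowP K P' = belowP K P →
        res K M L (normSymbol L P' z) = res K M L (normSymbol L P z) := by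
  obtain ⟨j, hj⟩ := exists_level_single (L := L) hB.σ_ne hB.σ_univ P
  obtain ⟨d, hd, hd'⟩ := exists_single hB.σ_ne hB.σ_univ P hs z j
  refine ⟨⟨_, (hj z d hd hd').symm⟩, fun P' hP' => ?_⟩
  rcases eq_or_eq_galPrime hB.σ_ne hB.σ_univ hP'.symm with rfl | rfl
  · rfl
  · have h := res_symbol_mul (L := L) hB.σ_ne hB.σ_univ P hs z
    rw [hz, hc.1] at h
    rw [← one_mul (res K M L (normSymbol L (galPrime σ P) z)),
      ← hB.exp2 (res K M L (normSymbol L P z)), mul_assoc, h, mul_one]

/-- **Sufficiency**: prescribed symbols with product one make a local norm a norm. -/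
theorem exists_norm_of_targets {c : Kˣ} (hc : IsLocNorm L c) {z : Mˣ}
    (hz : normU' (K := K) z = c) (S : Finset (HeightOneSpectrum (𝓞 K)))
    (a : HeightOneSpectrum (𝓞 K) → Kˣ) (b : InfinitePlace K → Kˣ)
    (hin : ∀ P : HeightOneSpectrum (𝓞 M), SplitsAt M (belowP K P) → belowP K P ∈ S →
      normSymbol L (belowP K P) (a (belowP K P)) = res K M L (normSymbol L P z))
    (hout : ∀ P : HeightOneSpectrum (𝓞 M), SplitsAt M (belowP K P) → belowP K P ∉ S →
      normSymbol L P z = 1)
    (hres : ∀ v ∈ S, AlgEquiv.restrictNormalHom M (normSymbol L v (a v)) = 1)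
    (hbM : ∀ w : InfinitePlace K, ¬ w.IsUnramifiedIn M →
      ∀ hr : IsReal w, 0 < embedding_of_isReal hr (b w : K))
    (hb : ∀ u : InfinitePlace M, ¬ u.IsUnramifiedIn L → ∀ hu : IsReal u,
      0 < embedding_of_isReal hu (z : M) *
        embedding_of_isReal hu (algebraMap K M (b (u.comap (algebraMap K M)) : K)))
    (hprod : (∏ v ∈ S, normSymbol L v (a v)) * ∏ w : InfinitePlace K, infSymbol L w (b w) = 1) :
    ∃ y : Lˣ, normU' (K := K) y = c := by
  obtain ⟨n, Q, hQ, hS, hoth, hsgn, hnQ⟩ := exists_prescribed (L := L) S a b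
  rw [hprod, inv_one] at hnQ
  have hout' : ∀ v ∉ S, normSymbol L v n = 1 := fun v hv => by
    by_cases h : v = Q
    · rw [h, hnQ]
    · exact hoth v hv h
  obtain ⟨w, hw⟩ := exists_norm_eq (gen_sigma hB) (a := n) (fun v => by
    rw [← ker_normSymbol (L := M) v, MonoidHom.mem_ker, ← restrict_normSymbol (L := L)]
    by_cases hv : v ∈ S
    · rw [hS v hv, hres v hv]
    · rw [hout' v hv, map_one]) fun v hv hr =>
        (mul_pos_iff_of_pos_right (hbM v hv hr)).1 (hsgn v hr)
  obtain ⟨t, ht⟩ := exists_gen_top hB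
  set z' : Mˣ := z * (galU σ w / w)
  have hz' : normU' (K := K) z' = c := by rw [map_mul, normU'_diff hB.σ_ne hB.σ_univ, mul_one, hz]
  obtain ⟨y, hy⟩ := exists_norm_eq ht (a := z') (fun P => by
    rw [← ker_normSymbol (L := L) P, MonoidHom.mem_ker]
    apply res_injective (K := K)
    rw [map_one]
    by_cases hs : SplitsAt M (belowP K P)
    · rw [map_mul, map_mul, res_symbol_diff hB.σ_ne hB.σ_univ hB.exp2 P hs, hw]
      by_cases hv : belowP K P ∈ S
      · rw [hS _ hv, hin P hs hv, hB.exp2]
      · rw [hout' _ hv, hout P hs hv, map_one, mul_one]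
    · rw [res_symbol_of_not_split hB.σ_ne hB.σ_univ P hs, hz', hc.1]) fun u hu hur => by
    have hemb : ∀ q : K, embedding_of_isReal hur (algebraMap K M q) =
        embedding_of_isReal (hur.comap (algebraMap K M)) q := fun q => by
      refine Complex.ofReal_injective ?_
      rw [embedding_of_isReal_apply, embedding_of_isReal_apply,
        comap_embedding_of_isReal (algebraMap K M) (hur.comap (algebraMap K M))]
      rfl
    set ε := embedding_of_isReal hur
    set β := ε (algebraMap K M (b (u.comap (algebraMap K M)) : K))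
    have h1 : 0 < ε (z : M) * β := hb u hu hur
    have h2 : 0 < ε (algebraMap K M (n : K)) * β := by
      simp only [β, ε, hemb]
      exact hsgn _ _
    rw [← hw, ← baseU_val, baseU_normU' hB.σ_ne hB.σ_univ, Units.val_mul, map_mul] at h2
    show 0 < ε ((z * (galU σ w / w) : Mˣ) : M)
    rw [Units.val_mul, Units.val_div_eq_div_val, map_mul, map_div₀]
    set p := ε (z : M)
    set q := ε ((galU σ w : Mˣ) : M)
    set r := ε (w : M)
    have hr0 : r ≠ 0 := (map_ne_zero ε).2 w.ne_zero
    have hβ0 : β ≠ 0 := fun h => by rw [h, mul_zero] at h1; exact lt_irrefl _ h1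
    have h5 : p * (q / r) = (p * β) * (r * q * β) / (r * β * (r * β)) := by field_simp
    rw [h5]
    exact div_pos (mul_pos h1 h2) (mul_self_pos.2 (mul_ne_zero hr0 hβ0))
  exact ⟨y, by rw [← normU'_normU' (M := M), hy, hz']⟩

end FA.BiquadNorm
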