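import Fermat.Agent.NormResidue.Kernel
import Fermat.Agent.ExistenceTheorem.RayMaps

/-!
# Elements with prescribed norm residue symbols

In an abelian extension of number fields symbols can be prescribed at finitely many primes and at
the infinite places by an element with trivial symbol at all other primes except one.
-/

set_option autoImplicit false
set_option linter.unusedSectionVars false
set_option linter.style.haveILetI false

noncomputable section

open NumberField NumberField.InfinitePlace IsDedekindDomain WithZero IsMulCommutative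
open FA.ArtinRec FA.NormResidue
open FA.Hecke (coprimeIdeals rayClass rayClass_eq_iff exists_isReal_embedding)
open FA.Ext (primeIdeal)
open FA.HasseCyclic (nearOne mem_nearOne nearOne_anti ord_eq_zero_of_nearOne)
open scoped Pointwise nonZeroDivisors Classical

namespace FA.BiquadNorm

variable {K L : Type*} [Field K] [NumberField K] [Field L] [NumberField L] [Algebra K L]
  [IsGalois K L] [IsMulCommutative (L ≃ₐ[K] L)]

/-- Only the sign matters at an infinite place. -/
theorem infSymbol_eq_of_sign {w : InfinitePlace K} {a b : Kˣ}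
    (h : ∀ hr : IsReal w, 0 < embedding_of_isReal hr (a : K) * embedding_of_isReal hr (b : K)) :
    infSymbol L w a = infSymbol L w b := by
  rw [← div_eq_one, ← map_div]
  refine infSymbol_eq_one fun _ hr => ?_
  rw [Units.val_div_eq_div_val, map_div₀]
  exact div_pos_iff.2 (mul_pos_iff.1 (h hr))

/-- Close elements have the same symbol. -/
theorem normSymbol_eq_of_near {v : HeightOneSpectrum (𝓞 K)} {a b : Kˣ}
    (h : a / b ∈ nearOne v (nrLevel K L)) : normSymbol L v a = normSymbol L v b := by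
  rw [← div_eq_one, ← map_div]
  exact MonoidHom.mem_ker.1 (nearOne_le_ker_normSymbol v h)

/-- Congruent to one modulo a power of a prime. -/
theorem intU_mem_nearOne {v : HeightOneSpectrum (𝓞 K)} {k : ℕ} {x : 𝓞 K} (hx : x ≠ 0)
    (h : x - 1 ∈ v.asIdeal ^ (k + 1)) : intU x hx ∈ nearOne v k := by
  have h1 := (valuation_coe_le_iff v _ (k + 1)).2 h
  push_cast at h1
  rw [mem_nearOne, intU_val]
  push_cast
  exact h1

/-- **Prescribed symbols**, with one auxiliary prime. -/
theorem exists_prescribed (S : Finset (HeightOneSpectrum (𝓞 K)))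
    (a : HeightOneSpectrum (𝓞 K) → Kˣ) (b : InfinitePlace K → Kˣ) :
    ∃ (n : Kˣ) (Q : HeightOneSpectrum (𝓞 K)), Q ∉ S ∧
      (∀ v ∈ S, normSymbol L v n = normSymbol L v (a v)) ∧
      (∀ v ∉ S, v ≠ Q → normSymbol L v n = 1) ∧
      (∀ (w : InfinitePlace K) (hr : IsReal w),
        0 < embedding_of_isReal hr (n : K) * embedding_of_isReal hr (b w : K)) ∧
      normSymbol L Q n =
        ((∏ v ∈ S, normSymbol L v (a v)) * ∏ w : InfinitePlace K, infSymbol L w (b w))⁻¹ := by
  set S' := S ∪ (finite_isRam K L).toFinset with hS'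
  set k := nrLevel K L
  obtain ⟨n₀, hn₀, hs⟩ := exists_approx S' (fun v => if v ∈ S then a v else 1) (k + 1)
    fun φ => decide (0 < φ (b (exists_isReal_embedding φ).choose.1 : K))
  set 𝔪 : Ideal (𝓞 K) := ∏ v ∈ S', v.asIdeal ^ (k + 1) with h𝔪def
  have h𝔪 : 𝔪 ≠ ⊥ := Finset.prod_ne_zero_iff.2 fun v _ => pow_ne_zero _ v.ne_bot
  have hdvd : ∀ v : HeightOneSpectrum (𝓞 K), v.asIdeal ∣ 𝔪 → v ∈ S' := fun v hv => by
    obtain ⟨u, hu, hd⟩ := v.prime.exists_mem_finset_dvd hv
    rwa [show v = u from HeightOneSpectrum.ext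
      ((prime_dvd_prime_iff_eq v.prime u.prime).1 (v.prime.dvd_of_dvd_pow hd))]
  have hex : ∀ f : HeightOneSpectrum (𝓞 K) → ℤ, (∀ v, f v ≠ 0 → ord v n₀ ≠ 0) →
      ∃ I : coprimeIdeals 𝔪, ∀ v, ordI v I.1.1 = if v ∈ S' then 0 else (f v).toNat := fun f hf => by
    obtain ⟨I, hI, h⟩ := exists_ideal_ordI (fun v => if v ∈ S' then 0 else (f v).toNat)
      ((finite_ord_ne_zero n₀).subset fun v hv => hf v fun h0 => hv (by simp [h0]))
    exact ⟨⟨⟨I, mem_nonZeroDivisors_iff_ne_zero.2 hI⟩,
      coprime_iff_ordI.2 fun v hv => by rw [h, if_pos (hdvd v hv)]⟩, h⟩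
  obtain ⟨I, hI⟩ := hex (fun v => ord v n₀) fun v h => h
  obtain ⟨J, hJ⟩ := hex (fun v => -ord v n₀) fun v h h0 => h (by simp [h0])
  obtain ⟨Q, hQm, hQS, hγ⟩ := exists_prime_in_class_avoiding h𝔪
    (rayClass h𝔪 I / rayClass h𝔪 J) S'.finite_toSet
  replace hQS : Q ∉ S' := fun h => hQS h
  rw [eq_div_iff_mul_eq', ← map_mul, rayClass_eq_iff] at hγ
  obtain ⟨x, y, ⟨hx, hx1, hxp⟩, ⟨hy, hy1, hyp⟩, he⟩ := hγ
  set n : Kˣ := n₀ * (intU y hy / intU x hx) with hn
  have hxy : ∀ v ∈ S', intU y hy / intU x hx ∈ nearOne v k := fun v hv => by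
    have hle : 𝔪 ≤ v.asIdeal ^ (k + 1) := Ideal.le_of_dvd
      (Finset.dvd_prod_of_mem (fun u : HeightOneSpectrum (𝓞 K) => u.asIdeal ^ (k + 1)) hv)
    exact div_mem (intU_mem_nearOne hy (hle hy1)) (intU_mem_nearOne hx (hle hx1))
  have hnear : ∀ v ∈ S', normSymbol L v n =
      normSymbol L v (if v ∈ S then a v else 1) := fun v hv => by
    refine normSymbol_eq_of_near ?_
    rw [hn, mul_div_right_comm]
    refine mul_mem ?_ (hxy v hv)
    rw [mem_nearOne, Units.val_div_eq_div_val]
    exact hn₀ v hv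
  have hordn : ∀ v, v ∉ S' → ord v n = if v = Q then 1 else 0 := fun v hv => by
    have h := congrArg (ordI v) he
    have hI0 := nonZeroDivisors.coe_ne_zero I.1
    have hJ0 := nonZeroDivisors.coe_ne_zero J.1
    simp only [Submonoid.coe_mul] at h
    rw [show (primeIdeal Q : (Ideal (𝓞 K))⁰).1 = Q.asIdeal from rfl,
      ordI_mul v (by simpa using hx) (mul_ne_zero Q.ne_bot hJ0), ordI_mul v Q.ne_bot hJ0,
      ordI_mul v (by simpa using hy) hI0, ordI_prime, hI v, hJ v, if_neg hv, if_neg hv] at h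
    rw [hn, ord_mul, ord_div, ord_intU_eq_ordI, ord_intU_eq_ordI]
    split_ifs at h ⊢ <;> omega
  have hunr : ∀ v, v ∉ S' → ¬ IsRam L v := fun v hv hr => hv
    (Finset.mem_union_right _ ((finite_isRam K L).mem_toFinset.2 hr))
  have hS : ∀ v ∈ S, normSymbol L v n = normSymbol L v (a v) := fun v hv => by
    rw [hnear v (Finset.mem_union_left _ hv), if_pos hv]
  have hout : ∀ v ∉ S, v ≠ Q → normSymbol L v n = 1 := fun v hv hne => by
    by_cases hv' : v ∈ S'
    · rw [hnear v hv', if_neg hv, map_one]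
    · rw [normSymbol_of_not_isRam (hunr v hv'), hordn v hv', if_neg hne, zpow_zero]
  have hsign : ∀ (w : InfinitePlace K) (hr : IsReal w),
      0 < embedding_of_isReal hr (n : K) * embedding_of_isReal hr (b w : K) := fun w hr => by
    have h := hs (embedding_of_isReal hr)
    have hw : (exists_isReal_embedding (embedding_of_isReal hr)).choose.1 = w :=
      embedding_of_isReal_inj (exists_isReal_embedding (embedding_of_isReal hr)).choose.2 hr
        (exists_isReal_embedding (embedding_of_isReal hr)).choose_spec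
    rw [hw, decide_eq_true_iff] at h
    have hb0 : embedding_of_isReal hr (b w : K) ≠ 0 := (map_ne_zero _).2 (b w).ne_zero
    have hn0 : embedding_of_isReal hr (n₀ : K) ≠ 0 := (map_ne_zero _).2 n₀.ne_zero
    have hp : 0 < embedding_of_isReal hr ((intU y hy / intU x hx : Kˣ) : K) := by
      rw [Units.val_div_eq_div_val, intU_val, intU_val, map_div₀]
      exact div_pos (hyp _) (hxp _)
    rw [hn, Units.val_mul, map_mul, mul_right_comm]
    refine mul_pos ?_ hp
    rcases hb0.lt_or_gt with hb | hb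
    · exact mul_pos_of_neg_of_neg
        (lt_of_le_of_ne (not_lt.1 fun hp' => (h.1 hp').not_gt hb) hn0) hb
    · exact mul_pos (h.2 hb) hb
  have hQS₀ : Q ∉ S := fun h => hQS (Finset.mem_union_left _ h)
  refine ⟨n, Q, hQS₀, hS, hout, hsign, ?_⟩
  have hp := prod_normSymbol (L := L) n
  rw [finprod_eq_prod_of_mulSupport_subset _ (s := insert Q S) fun v hv => Finset.mem_coe.2
      (by_contra fun hc => by
        rw [Finset.mem_insert, not_or] at hc
        exact hv (hout v hc.2 hc.1)),
    Finset.prod_insert hQS₀, Finset.prod_congr rfl hS,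
    Finset.prod_congr rfl fun w _ => infSymbol_eq_of_sign (L := L) (hsign w), mul_assoc] at hp
  exact eq_inv_of_mul_eq_one_left hp

end FA.BiquadNorm
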