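import Fermat.Agent.BiquadNorm.Main
import Mathlib.NumberTheory.NumberField.InfinitePlace.Ramification

/-!
# The norm principle in biquadratic extensions

It holds exactly if some prime has the whole group as decomposition group; otherwise it fails by one
fixed square.
-/

set_option autoImplicit false
set_option linter.unusedSectionVars false
set_option linter.style.haveILetI false

noncomputable section

open NumberField NumberField.InfinitePlace IsDedekindDomain WithZero IsMulCommutative
open FA.ArtinRec FA.NormResidue FA.LocalCFT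
open FA.HasseCyclic (locNorms exists_norm_eq)
open FA.Hecke (exists_isReal_embedding)
open scoped Pointwise nonZeroDivisors Classical

namespace FA.BiquadNorm

variable {K M L : Type*} [Field K] [NumberField K] [Field M] [NumberField M] [Field L]
  [NumberField L] [Algebra K M] [Algebra M L] [Algebra K L] [IsScalarTower K M L] [IsGalois K M]
  [IsGalois K L] [IsGalois M L] [IsMulCommutative (L ≃ₐ[K] L)] [IsMulCommutative (M ≃ₐ[K] M)]
  [IsMulCommutative (L ≃ₐ[M] L)]

/-- A real place that ramifies in `M` ramifies in `L`. -/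
theorem not_isUnramifiedIn_top {w : InfinitePlace K} (h : ¬ w.IsUnramifiedIn M) :
    ¬ w.IsUnramifiedIn L := fun hL => h fun u hu => by
  obtain ⟨W, rfl⟩ := InfinitePlace.comap_surjective (K := L) (k := M) u
  refine InfinitePlace.IsUnramified.comap M (hL W ?_)
  rw [IsScalarTower.algebraMap_eq K M L, InfinitePlace.comap_comp, hu]

variable {σ : M ≃ₐ[K] M} {τ : L ≃ₐ[K] L} (hB : IsBiquad σ τ)
include hB

theorem exists_nontrivial_lift : ∃ g : L ≃ₐ[K] L, AlgEquiv.restrictNormalHom M g ≠ 1 := by
  obtain ⟨g, hg⟩ := AlgEquiv.restrictNormalHom_surjective (F := K) (K₁ := M) L σ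
  exact ⟨g, hg.symm ▸ hB.σ_ne⟩

/-- An element with symbol `τ` at one split prime and one at all others, positive everywhere. -/
theorem exists_critical : ∃ (x : Kˣ) (v₁ : HeightOneSpectrum (𝓞 K)),
    (∀ φ : K →+* ℝ, 0 < φ (x : K)) ∧ SplitsAt M v₁ ∧ normSymbol L v₁ x = τ ∧
      ∀ v, SplitsAt M v → v ≠ v₁ → normSymbol L v x = 1 := by
  obtain ⟨g, hg⟩ := exists_nontrivial_lift hB
  obtain ⟨v₁, h1, hr1⟩ := ((infinite_artinAt τ).sdiff (finite_isRam K L)).nonempty
  obtain ⟨v₂, h2, hr2⟩ := ((infinite_artinAt g).sdiff (finite_isRam K L)).nonempty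
  rw [Set.mem_ofPred_eq] at h1 h2 hr1 hr2
  have hsym : ∀ {v} {h : L ≃ₐ[K] L}, ¬ IsRam L v → artinAt L v = h →
      normSymbol L v (unif v) = h := fun {v h} hr he => by
    rw [normSymbol_of_not_isRam hr, ord_unif, zpow_one, he]
  have hs1 : SplitsAt M v₁ := splitsAt_of_restrict fun a => by
    rw [normSymbol_of_not_isRam hr1, h1, map_zpow, hB.τ_res, one_zpow]
  have hne : v₁ ≠ v₂ := fun e => hg (by rw [← h2, ← e, h1]; exact hB.τ_res)
  obtain ⟨x, Q, hQ, hS, hout, hsgn, hxQ⟩ :=
    exists_prescribed (L := L) {v₁, v₂} unif (fun _ => 1)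
  rw [Finset.prod_pair hne, hsym hr1 h1, hsym hr2 h2, Finset.prod_eq_one fun _ _ => map_one _,
    mul_one] at hxQ
  refine ⟨x, v₁, fun φ => ?_, hs1, ?_, fun v hv hv1 => ?_⟩
  · obtain ⟨⟨w, hw⟩, rfl⟩ := exists_isReal_embedding φ
    have h := hsgn w hw
    rwa [Units.val_one, map_one, mul_one] at h
  · rw [hS _ (Finset.mem_insert_self _ _), hsym hr1 h1]
  · have hv2 : v ≠ v₂ := fun e => hg (by
      rw [← hsym hr2 h2, ← e]
      exact restrict_symbol_of_split hv _)
    by_cases hvQ : v = Q
    · refine absurd ?_ hg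
      have h := restrict_symbol_of_split (L := L) hv x
      rw [hvQ, hxQ, map_inv, inv_eq_one, map_mul, hB.τ_res, one_mul] at h
      exact h
    · exact hout v (by simp [hv1, hv2]) hvQ

/-- Signs of `z` over a place where its norm is positive. -/
theorem sign_eq {z : Mˣ} {c : Kˣ} (hz : normU' (K := K) z = c) (ε ε' : M →+* ℝ)
    (he : ∀ q : K, ε' (algebraMap K M q) = ε (algebraMap K M q))
    (hc : 0 < ε (algebraMap K M (c : K))) : 0 < ε (z : M) * ε' (z : M) := by
  obtain ⟨g, hg⟩ := NumberField.ComplexEmbedding.exists_comp_symm_eq_of_comp_eq (k := K)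
    (Complex.ofRealHom.comp ε) (Complex.ofRealHom.comp ε') (RingHom.ext fun q => by
      simp only [RingHom.comp_apply]
      rw [he])
  have h1 : ε (g.symm (z : M)) = ε' (z : M) :=
    Complex.ofReal_injective (DFunLike.congr_fun hg (z : M))
  have hz0 : ε (z : M) ≠ 0 := (map_ne_zero ε).2 z.ne_zero
  rw [← hz, ← baseU_val, baseU_normU' hB.σ_ne hB.σ_univ, Units.val_mul, map_mul] at hc
  rw [← h1]
  rcases hB.σ_univ g.symm with h | h
  · rw [h, AlgEquiv.one_apply]
    exact mul_self_pos.2 hz0
  · rw [h]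
    exact hc

/-- A local norm is a norm from the quadratic step. -/
theorem exists_half {c : Kˣ} (hc : IsLocNorm L c) : ∃ z : Mˣ, normU' (K := K) z = c :=
  exists_norm_eq (gen_sigma hB) (fun v => by
    rw [← ker_normSymbol (L := M) v, MonoidHom.mem_ker, ← restrict_normSymbol (L := L), hc.1,
      map_one]) fun w hw hr => hc.2 w (not_isUnramifiedIn_top hw) hr

/-- **A local norm is a norm, or becomes one after multiplication by the critical square.** -/
theorem norm_or_norm_sq {x : Kˣ} {v₁ : HeightOneSpectrum (𝓞 K)}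
    (hpos : ∀ φ : K →+* ℝ, 0 < φ (x : K)) (hv₁ : SplitsAt M v₁)
    (hx₁ : normSymbol L v₁ x = τ) (hx : ∀ v, SplitsAt M v → v ≠ v₁ → normSymbol L v x = 1)
    {c : Kˣ} (hc : IsLocNorm L c) :
    (∃ y : Lˣ, normU' (K := K) y = c) ∨
      ((∀ v : HeightOneSpectrum (𝓞 K), ¬ IsFull L v) ∧
        ∃ y : Lˣ, normU' (K := K) y = c * (x * x)) := by
  obtain ⟨z, hz⟩ := exists_half hB hc
  have hex : ∀ v : HeightOneSpectrum (𝓞 K), ∃ a : Kˣ,
      (∀ P : HeightOneSpectrum (𝓞 M), SplitsAt M v → belowP K P = v →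
        normSymbol L v a = res K M L (normSymbol L P z)) ∧
      AlgEquiv.restrictNormalHom M (normSymbol L v a) = 1 := fun v => by
    by_cases hs : SplitsAt M v
    · obtain ⟨P, rfl⟩ := exists_belowP K M v
      obtain ⟨⟨a, ha⟩, hP⟩ := exists_target hB hc hz P hs
      exact ⟨a, fun P' _ h => by rw [ha, hP P' h], restrict_symbol_of_split hs a⟩
    · exact ⟨1, fun _ h => absurd h hs, by rw [map_one, map_one]⟩
  choose a ha ha' using hex
  set S := insert v₁ ((((normSymbol_finite_support (L := L) z).image (belowP K)).toFinset).filter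
    fun v => SplitsAt M v)
  have hSsplit : ∀ v ∈ S, SplitsAt M v := fun v hv => by
    rcases Finset.mem_insert.1 hv with rfl | h
    · exact hv₁
    · exact (Finset.mem_filter.1 h).2
  have hout : ∀ P : HeightOneSpectrum (𝓞 M), SplitsAt M (belowP K P) → belowP K P ∉ S →
      normSymbol L P z = 1 := fun P hs hn => by_contra fun h => hn (Finset.mem_insert_of_mem
    (Finset.mem_filter.2 ⟨(Set.Finite.mem_toFinset _).2 ⟨P, h, rfl⟩, hs⟩))
  set b : InfinitePlace K → Kˣ := fun w =>
    if w.IsUnramifiedIn M ∧ ∃ u : InfinitePlace M, u.comap (algebraMap K M) = w ∧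
      ∃ hu : IsReal u, embedding_of_isReal hu (z : M) < 0 then -1 else 1
  have hbM : ∀ w : InfinitePlace K, ¬ w.IsUnramifiedIn M →
      ∀ hr : IsReal w, 0 < embedding_of_isReal hr (b w : K) := fun w hw hr => by
    simp only [b]
    rw [if_neg fun h => hw h.1, Units.val_one, map_one]
    exact zero_lt_one
  have hb : ∀ u : InfinitePlace M, ¬ u.IsUnramifiedIn L → ∀ hu : IsReal u,
      0 < embedding_of_isReal hu (z : M) *
        embedding_of_isReal hu (algebraMap K M (b (u.comap (algebraMap K M)) : K)) := by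
    intro u hu hur
    set w := u.comap (algebraMap K M) with hw_def
    have hwr : IsReal w := hur.comap _
    have hwM : w.IsUnramifiedIn M := fun u' hu' => by
      obtain ⟨g, rfl⟩ := InfinitePlace.exists_smul_eq_of_comap_eq (hw_def.symm.trans hu'.symm)
      rw [isUnramified_smul_iff]
      exact isUnramified_iff.2 (Or.inl hur)
    have hwL : ¬ w.IsUnramifiedIn L := fun h => hu fun W hW => by
      have h1 := h W (by rw [hw_def, ← hW, ← InfinitePlace.comap_comp,
        ← IsScalarTower.algebraMap_eq])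
      exact h1.of_restrictScalars M
    have hemb' : ∀ (w' : InfinitePlace K) (hw' : IsReal w') (u' : InfinitePlace M)
        (hu' : IsReal u'),
        u'.comap (algebraMap K M) = w' → ∀ q : K,
          embedding_of_isReal hu' (algebraMap K M q) = embedding_of_isReal hw' q :=
      fun w' hw' u' hu' h q => by
        subst h
        refine Complex.ofReal_injective ?_
        rw [embedding_of_isReal_apply, embedding_of_isReal_apply,
          comap_embedding_of_isReal (algebraMap K M) hw']
        rfl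
    have hemb := hemb' w hwr
    have hcw : 0 < embedding_of_isReal hur (algebraMap K M (c : K)) := by
      rw [hemb u hur rfl]
      exact hc.2 w hwL hwr
    by_cases hneg : ∃ u' : InfinitePlace M, u'.comap (algebraMap K M) = w ∧
        ∃ hu' : IsReal u', embedding_of_isReal hu' (z : M) < 0
    · obtain ⟨u', hu', hur', hlt⟩ := hneg
      have h := sign_eq hB hz (embedding_of_isReal hur) (embedding_of_isReal hur')
        (fun q => by rw [hemb u' hur' hu', hemb u hur rfl]) hcw
      simp only [b]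
      rw [if_pos (by exact ⟨hwM, u', hu', hur', hlt⟩)]
      simp only [Units.val_neg, Units.val_one, map_neg, map_one, mul_neg, mul_one, neg_pos]
      exact neg_of_mul_pos_left h hlt.le
    · simp only [b]
      rw [if_neg fun h => hneg h.2, Units.val_one, map_one, map_one, mul_one]
      exact lt_of_le_of_ne (not_lt.1 fun h => hneg ⟨u, rfl, hur, h⟩)
        (Ne.symm ((map_ne_zero _).2 z.ne_zero))
  set T := (∏ v ∈ S, normSymbol L v (a v)) * ∏ w : InfinitePlace K, infSymbol L w (b w)
  have hT : AlgEquiv.restrictNormalHom M T = 1 := by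
    simp only [T, map_mul, map_prod, restrict_infSymbol]
    rw [Finset.prod_eq_one fun v _ => ha' v,
      Finset.prod_eq_one fun w _ => infSymbol_eq_one fun hw hr => hbM w hw hr, one_mul]
  by_cases hfull : ∃ v₀ : HeightOneSpectrum (𝓞 K), IsFull L v₀
  · obtain ⟨v₀, hv₀⟩ := hfull
    obtain ⟨a₀, ha₀⟩ : T⁻¹ ∈ (normSymbol L v₀).range := by
      rw [show (normSymbol L v₀).range = ⊤ from hv₀]
      exact Subgroup.mem_top _
    have hns : ¬ SplitsAt M v₀ := fun hs => by
      obtain ⟨g, hg⟩ := exists_nontrivial_lift hB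
      obtain ⟨a', rfl⟩ : g ∈ (normSymbol L v₀).range := by
        rw [show (normSymbol L v₀).range = ⊤ from hv₀]
        exact Subgroup.mem_top _
      exact hg (restrict_symbol_of_split hs a')
    have hv₀S : v₀ ∉ S := fun h => hns (hSsplit _ h)
    refine Or.inl (exists_norm_of_targets hB hc hz (insert v₀ S) (Function.update a v₀ a₀) b
      (fun P hs _ => ?_) (fun P hs hn => hout P hs fun h => hn (Finset.mem_insert_of_mem h))
      (fun v hv => ?_) hbM hb ?_)
    · rw [Function.update_of_ne fun (h : belowP K P = v₀) => hns (h ▸ hs)]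
      exact ha _ P hs rfl
    · by_cases h : v = v₀
      · subst h
        rw [Function.update_self, ha₀, map_inv, hT, inv_one]
      · rw [Function.update_of_ne h]
        exact ha' v
    · rw [Finset.prod_insert hv₀S, Function.update_self, ha₀, Finset.prod_congr rfl fun v hv =>
        show normSymbol L v (Function.update a v₀ a₀ v) = normSymbol L v (a v) by
          rw [Function.update_of_ne fun (h : v = v₀) => hv₀S (h ▸ hv)], mul_assoc]
      exact inv_mul_cancel T
  · rw [not_exists] at hfull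
    rcases hB.τ_univ T hT with h1 | hτ
    · exact Or.inl (exists_norm_of_targets hB hc hz S a b (fun P hs _ => ha _ P hs rfl) hout
        (fun v _ => ha' v) hbM hb h1)
    refine Or.inr ⟨hfull, exists_norm_of_targets hB (c := c * (x * x)) (z := z * baseU x)
      ⟨fun v => ?_, fun w hw hr => ?_⟩ ?_ S (fun v => a v * x) b (fun P hs _ => ?_)
      (fun P hs hn => ?_) (fun v hv => ?_) hbM (fun u hu hur => ?_) ?_⟩
    · rw [map_mul, hc.1, (isLocNorm_sq hB x).1, one_mul]
    · rw [Units.val_mul, map_mul]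
      exact mul_pos (hc.2 w hw hr) ((isLocNorm_sq hB x).2 w hw hr)
    · rw [map_mul, hz, normU'_baseU hB]
    · rw [map_mul, map_mul, map_mul, res_symbol_base hB.σ_ne hB.σ_univ P hs, ha _ P hs rfl]
    · apply res_injective (K := K)
      rw [map_mul, map_mul, res_symbol_base hB.σ_ne hB.σ_univ P hs, hout P hs hn,
        hx _ hs fun (h : belowP K P = v₁) => hn (h ▸ Finset.mem_insert_self _ _), map_one,
        one_mul]
    · exact restrict_symbol_of_split (hSsplit v hv) _
    · rw [Units.val_mul, map_mul, mul_right_comm, baseU_val]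
      exact mul_pos (hb u hu hur) (hpos ((embedding_of_isReal hur).comp (algebraMap K M)))
    · simp only [map_mul]
      rw [Finset.prod_mul_distrib, Finset.prod_eq_single v₁
        (fun v hv hne => hx v (hSsplit v hv) hne)
        (fun h => absurd (Finset.mem_insert_self _ _) h), hx₁, mul_right_comm,
        show (∏ v ∈ S, normSymbol L v (a v)) * ∏ w : InfinitePlace K, infSymbol L w (b w) = T
          from rfl, hτ, hB.exp2]

/-- **The principle for a biquadratic tower.** -/
theorem principle_aux :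
    ((∀ c, IsLocNorm L c → ∃ y : Lˣ, normU' (K := K) y = c) ↔
      ∃ v : HeightOneSpectrum (𝓞 K), IsFull L v) ∧
    ∃ x : Kˣ, ((∀ v : HeightOneSpectrum (𝓞 K), ¬ IsFull L v) →
        ¬ ∃ y : Lˣ, normU' (K := K) y = x * x) ∧
      ∀ c, IsLocNorm L c →
        (∃ y : Lˣ, normU' (K := K) y = c) ∨ ∃ y : Lˣ, normU' (K := K) y = c * (x * x) := by
  obtain ⟨x, v₁, hpos, hv₁, hx₁, hx⟩ := exists_critical hB
  refine ⟨⟨fun h => ?_, fun ⟨v, hv⟩ c hc => ?_⟩, x, fun h => sq_not_norm hB h hpos hv₁ hx₁ hx,
    fun c hc => (norm_or_norm_sq hB hpos hv₁ hx₁ hx hc).imp_right And.right⟩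
  · by_contra hcon
    rw [not_exists] at hcon
    exact sq_not_norm hB hcon hpos hv₁ hx₁ hx (h _ (isLocNorm_sq hB x))
  · exact (norm_or_norm_sq hB hpos hv₁ hx₁ hx hc).resolve_right fun h => h.1 v hv

omit hB

variable (K L) in
/-- **The principle for a biquadratic extension.** -/
theorem principle (hexp : ∀ g : L ≃ₐ[K] L, g * g = 1) (hcard : Nat.card (L ≃ₐ[K] L) = 4) :
    ((∀ c, IsLocNorm L c → ∃ y : Lˣ, normU' (K := K) y = c) ↔
      ∃ v : HeightOneSpectrum (𝓞 K), IsFull L v) ∧
    ∃ x : Kˣ, ((∀ v : HeightOneSpectrum (𝓞 K), ¬ IsFull L v) →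
        ¬ ∃ y : Lˣ, normU' (K := K) y = x * x) ∧
      ∀ c, IsLocNorm L c →
        (∃ y : Lˣ, normU' (K := K) y = c) ∨ ∃ y : Lˣ, normU' (K := K) y = c * (x * x) := by
  haveI : Nontrivial (L ≃ₐ[K] L) := (Finite.one_lt_card_iff_nontrivial).1 (by omega)
  obtain ⟨τ, hτ⟩ := exists_ne (1 : L ≃ₐ[K] L)
  have hH : ∀ g ∈ Subgroup.zpowers τ, g = 1 ∨ g = τ := fun g hg => by
    obtain ⟨k, rfl⟩ := Subgroup.mem_zpowers_iff.1 hg
    rw [← Int.emod_add_mul_ediv k 2, zpow_add, zpow_mul, zpow_two, hexp, one_zpow, mul_one]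
    rcases Int.emod_two_eq k with h | h <;> simp [h]
  haveI := isGalois_fixedField (Subgroup.zpowers τ)
  set M := IntermediateField.fixedField (Subgroup.zpowers τ) with hM
  haveI := isMulCommutative_intermediate M
  haveI : IsMulCommutative (L ≃ₐ[M] L) := ⟨⟨fun g h => AlgEquiv.ext fun y =>
    DFunLike.congr_fun (mul_comm (g.restrictScalars K) (h.restrictScalars K)) y⟩⟩
  have hker : ∀ g : L ≃ₐ[K] L,
      AlgEquiv.restrictNormalHom M g = 1 ↔ g ∈ Subgroup.zpowers τ := fun g => by
    rw [← MonoidHom.mem_ker, ker_restrict_fixedField]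
  have hcard2 : Nat.card (M ≃ₐ[K] M) = 2 := by
    have h1 := Subgroup.index_ker (AlgEquiv.restrictNormalHom (F := K) (K₁ := L) M)
    rw [MonoidHom.range_eq_top.2 (AlgEquiv.restrictNormalHom_surjective (F := K) (K₁ := M) L),
      Nat.card_congr Subgroup.topEquiv.toEquiv, ker_restrict_fixedField] at h1
    have h2 := Subgroup.card_mul_index (Subgroup.zpowers τ)
    have hord : orderOf τ = 2 := orderOf_eq_prime (by rw [pow_two, hexp]) hτ
    rw [Nat.card_zpowers, hord, hcard] at h2
    omega
  obtain ⟨σ, hσ, hσu⟩ := (Nat.card_eq_two_iff' (1 : M ≃ₐ[K] M)).1 hcard2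
  refine principle_aux (M := M) (σ := σ) (τ := τ) ⟨hexp, hcard, hσ, fun g => ?_, hτ,
    (hker τ).2 (Subgroup.mem_zpowers τ), fun g hg => hH g ((hker g).1 hg)⟩
  by_cases h : g = 1
  · exact Or.inl h
  · exact Or.inr (hσu g h)

end FA.BiquadNorm

end
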