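import Fermat.Agent.BiquadNorm.Prescribe
import Fermat.Agent.LocalCFT.Functorial

/-!
# Symbols in a tower of two quadratic steps

For a quadratic step `M/K` inside an abelian `L/K` the symbols of `L/M` are those of `L/K` at norms:
directly at a prime that does not split in `M`, in pairs at a prime that does.
-/

set_option autoImplicit false
set_option linter.unusedSectionVars false
set_option linter.style.haveILetI false

noncomputable section

open NumberField NumberField.InfinitePlace IsDedekindDomain WithZero IsMulCommutative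
open FA.ArtinRec FA.NormResidue FA.LocalCFT
open FA.HasseCyclic (nearOne mem_nearOne nearOne_anti ord_eq_zero_of_nearOne)
open scoped Pointwise nonZeroDivisors Classical

namespace FA.BiquadNorm

variable {K M L : Type*} [Field K] [NumberField K] [Field M] [NumberField M] [Field L]
  [NumberField L] [Algebra K M] [Algebra M L] [Algebra K L] [IsScalarTower K M L] [IsGalois K M]
  [IsGalois K L] [IsGalois M L] [IsMulCommutative (L ≃ₐ[K] L)] [IsMulCommutative (M ≃ₐ[K] M)]
  [IsMulCommutative (L ≃ₐ[M] L)]

variable (K M L) in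
/-- The automorphisms over `M` as automorphisms over `K`. -/
def res : (L ≃ₐ[M] L) →* (L ≃ₐ[K] L) := restrictBelow K M L L

theorem res_apply (g : L ≃ₐ[M] L) (x : L) : res K M L g x = g x :=
  restrictBelow_apply (K := K) (M := M) (L := L) (N := L) g x

theorem res_injective : Function.Injective (res K M L) := fun g h e =>
  AlgEquiv.ext fun x => by rw [← res_apply (K := K) g, e, res_apply]

theorem restrict_res (g : L ≃ₐ[M] L) : AlgEquiv.restrictNormalHom M (res K M L g) = 1 :=
  AlgEquiv.ext fun x => (algebraMap M L).injective (by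
    show algebraMap M L ((res K M L g).restrictNormal M x) = algebraMap M L x
    rw [AlgEquiv.restrictNormal_commutes, res_apply, g.commutes])

variable (M) in
/-- The primes of `K` splitting in `M`. -/
def SplitsAt (v : HeightOneSpectrum (𝓞 K)) : Prop := ∀ a : Kˣ, normSymbol M v a = 1

theorem splitsAt_iff_stabilizer {v : HeightOneSpectrum (𝓞 K)} {P : HeightOneSpectrum (𝓞 M)}
    (hP : belowP K P = v) :
    SplitsAt M v ↔ MulAction.stabilizer (M ≃ₐ[K] M) P.asIdeal = ⊥ := by
  rw [← range_normSymbol hP, MonoidHom.range_eq_bot_iff, MonoidHom.ext_iff]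
  rfl

/-- A congruence from below. -/
theorem mem_nearOne_of_baseU (P : HeightOneSpectrum (𝓞 M)) {k : ℕ} {y : Kˣ}
    (h : baseU (L := M) y ∈ nearOne P (eIdx K P * (k + 1))) : y ∈ nearOne (belowP K P) k := by
  rw [mem_nearOne] at h ⊢
  by_cases h0 : (y : K) - 1 = 0
  · rw [h0, map_zero]
    exact zero_le
  rw [baseU_val, ← map_one (algebraMap K M), ← map_sub,
    show (y : K) - 1 = ((Units.mk0 _ h0 : Kˣ) : K) from rfl, ← baseU_val, valuation_eq_exp,
    ord_baseU, exp_le_exp] at h
  rw [show (y : K) - 1 = ((Units.mk0 _ h0 : Kˣ) : K) from rfl, valuation_eq_exp, exp_le_exp]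
  push_cast at h ⊢
  nlinarith [eIdx_pos (K := K) P]

section quadratic

variable {σ : M ≃ₐ[K] M} (hσ : σ ≠ 1) (hu : ∀ g : M ≃ₐ[K] M, g = 1 ∨ g = σ)
include hσ hu

theorem baseU_normU' (z : Mˣ) : baseU (normU' (K := K) z) = z * galU σ z := by
  have hun : (Finset.univ : Finset (M ≃ₐ[K] M)) = {1, σ} :=
    (Finset.eq_univ_iff_forall.2 fun g => by simpa using hu g).symm
  refine Units.ext ?_
  show algebraMap K M (Algebra.norm K (z : M)) = (z : M) * σ (z : M)
  rw [Algebra.norm_eq_prod_automorphisms, hun, Finset.prod_pair (Ne.symm hσ), AlgEquiv.one_apply]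

theorem galPrime_eq_iff (P : HeightOneSpectrum (𝓞 M)) :
    galPrime σ P = P ↔ ¬ SplitsAt M (belowP K P) := by
  rw [splitsAt_iff_stabilizer (P := P) rfl]
  constructor
  · intro h hb
    have : σ ∈ MulAction.stabilizer (M ≃ₐ[K] M) P.asIdeal :=
      congrArg HeightOneSpectrum.asIdeal h
    rw [hb, Subgroup.mem_bot] at this
    exact hσ this
  · intro h
    by_contra hne
    refine h ((Subgroup.eq_bot_iff_forall _).2 fun g hg => (hu g).resolve_right ?_)
    rintro rfl
    exact hne (HeightOneSpectrum.ext hg)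

theorem eq_or_eq_galPrime {P P' : HeightOneSpectrum (𝓞 M)} (h : belowP K P = belowP K P') :
    P' = P ∨ P' = galPrime σ P := by
  obtain ⟨g, rfl⟩ := FA.NormResidue.exists_galPrime_eq h
  rcases hu g with rfl | rfl
  · exact Or.inl (galPrime_one P)
  · exact Or.inr rfl

theorem galPrime_galPrime (P : HeightOneSpectrum (𝓞 M)) :
    galPrime σ (galPrime σ P) = P := by
  rw [← galPrime_mul, (hu (σ * σ)).resolve_right (fun h => hσ (mul_eq_left.1 h)), galPrime_one]

/-- **At a prime that does not split.** -/
theorem res_symbol_of_not_split (P : HeightOneSpectrum (𝓞 M))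
    (hP : ¬ SplitsAt M (belowP K P)) (z : Mˣ) :
    res K M L (normSymbol L P z) = normSymbol L (belowP K P) (normU' z) :=
  restrictBelow_normSymbol P (fun P' h => by
    rcases eq_or_eq_galPrime hσ hu h.symm with h1 | h1
    · exact h1
    · exact h1.trans ((galPrime_eq_iff hσ hu P).2 hP)) z

/-- An element close to `z` at `P` and to `1` at its conjugate. -/
theorem exists_single (P : HeightOneSpectrum (𝓞 M)) (hP : SplitsAt M (belowP K P)) (z : Mˣ)
    (k : ℕ) : ∃ c : Mˣ, c / z ∈ nearOne P k ∧ c ∈ nearOne (galPrime σ P) k := by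
  obtain ⟨c, hc⟩ := exists_element_above {belowP K P} (fun Q => if Q = P then z else 1) k
  have h1 := hc P (Finset.mem_singleton_self _)
  have h2 := hc (galPrime σ P) (Finset.mem_singleton.2 (belowP_galPrime σ P))
  rw [if_pos rfl] at h1
  rw [if_neg fun h => (galPrime_eq_iff hσ hu P).1 h hP, div_one] at h2
  exact ⟨c, h1, h2⟩

/-- The functoriality level with the single stand-in. -/
theorem exists_level_single (P : HeightOneSpectrum (𝓞 M)) :
    ∃ j : ℕ, ∀ z c : Mˣ, c / z ∈ nearOne P j → c ∈ nearOne (galPrime σ P) j →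
      res K M L (normSymbol L P z) = normSymbol L (belowP K P) (normU' c) := by
  obtain ⟨j, hj⟩ := exists_norm_symbol_level (K := K) (L := L) (N := L) P
  refine ⟨j, fun z c h1 h2 => hj z c h1 fun P' hP' hne => ?_⟩
  rcases eq_or_eq_galPrime hσ hu hP'.symm with h | h
  · exact absurd h hne
  · rwa [h]

/-- **The pair over a prime that splits.** -/
theorem res_symbol_mul (P : HeightOneSpectrum (𝓞 M)) (hP : SplitsAt M (belowP K P)) (z : Mˣ) :
    res K M L (normSymbol L P z) * res K M L (normSymbol L (galPrime σ P) z) =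
      normSymbol L (belowP K P) (normU' z) := by
  obtain ⟨j₁, hj₁⟩ := exists_level_single (L := L) hσ hu P
  obtain ⟨j₂, hj₂⟩ := exists_level_single (L := L) hσ hu (galPrime σ P)
  obtain ⟨j₃, hj₃⟩ := exists_norm_level_any_finset (M := M) {belowP K P} (nrLevel K L)
  set j := max j₁ (max j₂ j₃)
  obtain ⟨c, hc, hc'⟩ := exists_single hσ hu P hP z j
  obtain ⟨d, hd, hd'⟩ := exists_single hσ hu (galPrime σ P)
    ((belowP_galPrime σ P).symm ▸ hP) z j
  rw [galPrime_galPrime hσ hu] at hd'
  rw [hj₁ z c (nearOne_anti _ (le_max_left _ _) hc) (nearOne_anti _ (le_max_left _ _) hc'),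
    hj₂ z d (nearOne_anti _ ((le_max_left _ _).trans (le_max_right _ _)) hd)
      (by
        rw [galPrime_galPrime hσ hu]
        exact nearOne_anti _ ((le_max_left _ _).trans (le_max_right _ _)) hd'),
    belowP_galPrime, ← map_mul, ← map_mul]
  refine normSymbol_eq_of_near ?_
  rw [← map_div]
  refine hj₃ _ (Finset.mem_singleton_self _) _ fun Q hQ =>
    nearOne_anti Q (k := j) ((le_max_right j₂ j₃).trans (le_max_right j₁ _)) ?_
  rcases eq_or_eq_galPrime hσ hu hQ.symm with rfl | rfl
  · rw [mul_div_right_comm]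
    exact mul_mem hc hd'
  · rw [mul_div_assoc]
    exact mul_mem hc' hd

/-- **Elements of `K` at a prime that splits.** -/
theorem res_symbol_base (P : HeightOneSpectrum (𝓞 M)) (hP : SplitsAt M (belowP K P)) (x : Kˣ) :
    res K M L (normSymbol L P (baseU x)) = normSymbol L (belowP K P) x := by
  obtain ⟨j₁, hj₁⟩ := exists_level_single (L := L) hσ hu P
  set j := max j₁ (eIdx K P * (nrLevel K L + 1))
  obtain ⟨c, hc, hc'⟩ := exists_single hσ hu P hP (baseU x) j
  rw [hj₁ _ c (nearOne_anti _ (le_max_left _ _) hc) (nearOne_anti _ (le_max_left _ _) hc')]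
  refine normSymbol_eq_of_near (mem_nearOne_of_baseU P
    (nearOne_anti _ (k := j) (le_max_right j₁ _) ?_))
  rw [map_div, baseU_normU' hσ hu, mul_div_right_comm]
  refine mul_mem hc ?_
  have h := galU_mem_nearOne σ hc'
  rwa [galPrime_galPrime hσ hu] at h

/-- **A difference at a prime that splits.** -/
theorem res_symbol_diff (hexp : ∀ g : L ≃ₐ[K] L, g * g = 1) (P : HeightOneSpectrum (𝓞 M))
    (hP : SplitsAt M (belowP K P)) (w : Mˣ) :
    res K M L (normSymbol L P (galU σ w / w)) = normSymbol L (belowP K P) (normU' w) := by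
  rw [show galU σ w / w = baseU (normU' (K := K) w) / (w * w) by
    rw [baseU_normU' hσ hu, mul_comm w (galU σ w), mul_div_mul_right_eq_div],
    map_div, map_mul, map_div, map_mul, hexp, div_one, res_symbol_base hσ hu P hP]

/-- The norm of a difference. -/
theorem normU'_diff (w : Mˣ) : normU' (K := K) (galU σ w / w) = 1 := by
  rw [map_div, normU'_galU, div_self']

end quadratic

end FA.BiquadNorm
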